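-- Statement S23 (row 22): S_2(Γ0(N)) has an integral structure.
-- Proof: Fermat/Agent/S23/*.lean (route in NOTES/S23.md): norm polynomial over the level-one ring,
-- removable singularities, Aut(ℂ)-descent, bounded denominators via Θ = Δ(z)^N/Δ(Nz).
import Fermat.Statements.S23
import Fermat.Agent.S23.Main

set_option autoImplicit false
open CuspForm

namespace Fermat.Agent.S23

theorem result (N : ℕ) [NeZero N] : CuspForm.HasIntegralStructure N 2 :=
  hasIntegralStructure N 2

end Fermat.Agent.S23
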