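import Fermat.Statements.S20
import Fermat.Agent.S20.Assemble
import Fermat.Agent.S20.ExistsNondeg
import Fermat.Agent.S20.Glue0
import Fermat.Agent.S20.MIso
import Fermat.Agent.S20.SIso
import Fermat.Agent.S20.MinH
import Fermat.Agent.S20.LevelOneLocal
import Fermat.Agent.S20.Ell
import Fermat.Agent.S20.Count
import Fermat.Agent.S20.CuspCramer
import Fermat.Agent.S20.CuspCount
import Fermat.Agent.S20.CuspDescent

/-!
# S20: `dim S₂(Γ₀(N)) = genusFormula N`

Elementary route (no Riemann surfaces, no Riemann–Roch): a "good frame" of `μ = [SL₂(ℤ) : Γ₀(N)]`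
modular forms on `Γ₀(N)` whose conjugate matrix `A(z)` is invertible on `ℍ` and at the cusps gives
Cramer isomorphisms `M_l(Γ₀(N)) ≅ ⊕ᵢ M_{l-kᵢ}(SL₂(ℤ))`, `S_l(Γ₀(N)) ≅ ⊕ᵢ S_{l+kᵢ}(SL₂(ℤ))`; the
weights `kᵢ` are then pinned down by trace identities at `i`, `ρ` and at the cusps.
-/

set_option autoImplicit false
open CuspForm

namespace Fermat.Agent.S20

open CongruenceSubgroup UpperHalfPlane ModularForm
open scoped MatrixGroups Manifold

/-- a primitive cube root of unity -/
noncomputable def omega3 : ℂ := Complex.exp (2 * Real.pi * Complex.I / 3)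

lemma omega3_pow : omega3 ^ 3 = 1 := by
  unfold omega3
  rw [← Complex.exp_nat_mul]
  have : ((3 : ℕ) : ℂ) * (2 * Real.pi * Complex.I / 3) = 2 * Real.pi * Complex.I := by
    push_cast; ring
  rw [this, Complex.exp_two_pi_mul_I]

lemma omega3_ne_one : omega3 ≠ 1 := by
  unfold omega3
  intro h
  rw [Complex.exp_eq_one_iff] at h
  obtain ⟨n, hn⟩ := h
  have hpi : (2 * Real.pi * Complex.I : ℂ) ≠ 0 := by
    simp [Real.pi_ne_zero]
  have h2 : (1 : ℂ) / 3 = n := by
    have : (2 * Real.pi * Complex.I) * (1 / 3 : ℂ) = (2 * Real.pi * Complex.I) * n := by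
      rw [mul_comm _ (n : ℂ), ← hn]; ring
    exact mul_left_cancel₀ hpi this
  have h3 : (1 : ℂ) = 3 * n := by rw [← h2]; norm_num
  have h4 : (1 : ℤ) = 3 * n := by exact_mod_cast h3
  omega

theorem result (N : ℕ) [NeZero N] :
    (Module.finrank ℂ (CuspForm (CongruenceSubgroup.Gamma0 N) 2) : ℚ) = ModularCurve.genusFormula N := by
  exact assemble N Frame.CuspGood (exists_nondeg N)
    (fun Φ h hb => minH_of_local levelOne_local Φ h hb)
    (fun Φ h hb => cusp_descent Φ h hb)
    exists_good_frame (fun Φ h i => Φ.wt_nonneg h i) (fun Φ h i => Φ.wt_even h i)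
    finrank_M_zero (fun Φ hH hC {_} F i => cramer_bounded Φ hH hC F i)
    (fun Φ hH hC q i => disc_mul_inv_zero Φ hH hC q i)
    (fun Φ hH hC l hl hev => cusp_count Φ hH hC (fun F i => cramer_bounded Φ hH hC F i) l hl hev)
    (fun Φ hH hB l => finrank_M Φ hH hB l) (fun Φ hH hZ l => finrank_S Φ hH hZ l)
    omega3 omega3_pow omega3_ne_one
    (fun Φ h _ => ell_sigma_S Φ h) (fun Φ h _ => ell_sigma_ST Φ h omega3 omega3_pow omega3_ne_one)
    count_core

end Fermat.Agent.S20
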