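-- Statement S21 (row 20): Eichler–Shimura period isomorphism, `ModularCurve.periodHomPair_eichlerShimura`.
-- Assembly (helper21): pieces A, B, Range, Assemble (helper21), C (helper84), D (helper75),
-- E1 (helper94) and S20 (helper82's team).
import Fermat.Statements.S21
import Fermat.Agent.S21.Assemble
import Fermat.Agent.S21.ParabolicDim
import Fermat.Agent.S20

set_option autoImplicit false
open ModularCurve

namespace Fermat.Agent.S21

theorem result (N : ℕ) [NeZero N] :
    Function.Injective (ModularCurve.periodHomPair N)
      ∧ LinearMap.range (ModularCurve.periodHomPair N)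
          = ModularCurve.Period.parabolicHoms ℂ (CongruenceSubgroup.Gamma0 N) ℂ := by
  exact result_of_finrank_le_genus N (finrank_parabolicHoms_le N) (Fermat.Agent.S20.result N)

end Fermat.Agent.S21
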