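-- Statement S05 (row 5): the mod-p Galois representation of the Frey curve is unramified at
-- every prime q with q ≠ 2 and q ≠ p.
-- Proof (elementary, no Tate curve; helper5/helper13/helper63/helper99/helper45):
--   kernel of reduction has no p-torsion (Kernel), "same reduction ⇒ difference in the kernel"
--   (Key), tropical step at the node (Tropical), inertia plumbing (Inertia), Frey arithmetic
--   (FreyArith), assembly (LocalFix, FreyFix).
import Fermat.Statements.S05
import Fermat.Agent.S05.FreyFix
import Fermat.Agent.S05.Tropical

set_option autoImplicit false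
open WeierstrassCurve WeierstrassCurve.Affine WeierstrassCurve.Affine.Point
open CuspForm ModularFormClass UpperHalfPlane
open FreyPackage

namespace Fermat.Agent.S05

theorem result (P : FreyPackage) {q : ℕ} (hq : q.Prime) (hq2 : q ≠ 2) (hqp : q ≠ P.p) : P.GaloisRepUnramifiedAt q := by
  refine frey_unramified_of_tropical P hq hq2 hqp ?_
  intro A hA r₁ e₂ e₃ hr hr₁ he₃ he₂ he₂0 x y h htors hx
  exact tropical_torsion A.valuation hr.hb₂ hr.hb₄ hr.hb₆ (valuation_two_eq_one A hq hA hq2)
    he₃ he₂ he₂0 P.hp_odd h htors hx

end Fermat.Agent.S05
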