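import Fermat.Statements.S02

set_option autoImplicit false
open FreyPackage

namespace Fermat.Agent.S02

theorem s02_gcd_iff (a b : ℤ) : gcd a b = 1 ↔ Int.gcd a b = 1 := by
  rw [← Int.coe_gcd]
  exact_mod_cast Iff.rfl

/-- Sign/parity normalisation: coprime solution with `b` even gives a Frey package. -/
theorem s02_of_coprime_b_even (a b c : ℤ) (ha : a ≠ 0) (hb : b ≠ 0) (hc : c ≠ 0) (p : ℕ)
    (pp : p.Prime) (hp5 : 5 ≤ p) (H : a ^ p + b ^ p = c ^ p) (hgcd : gcd a b = 1)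
    (hbe : (2 : ℤ) ∣ b) : Nonempty FreyPackage := by
  have hp_odd : Odd p := pp.odd_of_ne_two (by omega)
  have hb2 : (b : ZMod 2) = 0 := (ZMod.intCast_zmod_eq_zero_iff_dvd b 2).2 hbe
  -- `a` is odd
  have hao : ¬ (2 : ℤ) ∣ a := by
    intro h2a
    have h : (2 : ℤ) ∣ gcd a b := dvd_gcd h2a hbe
    rw [hgcd] at h
    exact absurd h (by decide)
  have ha4 : a % 4 = 1 ∨ a % 4 = 3 := by
    have : a % 2 = 1 := by omega
    omega
  rcases ha4 with h1 | h3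
  · -- replace (a,b,c) by (-a,-b,-c)
    refine ⟨⟨-a, -b, -c, neg_ne_zero.2 ha, neg_ne_zero.2 hb, neg_ne_zero.2 hc, p, pp, hp5, ?_, ?_, ?_, ?_⟩⟩
    · rw [hp_odd.neg_pow, hp_odd.neg_pow, hp_odd.neg_pow, ← H]; ring
    · rw [s02_gcd_iff] at hgcd ⊢
      rw [Int.neg_gcd, Int.gcd_neg]; exact hgcd
    · have : ((-a : ℤ) : ZMod 4) = ((3 : ℤ) : ZMod 4) := by
        rw [ZMod.intCast_eq_intCast_iff_dvd_sub]
        omega
      simpa using this
    · have : ((-b : ℤ) : ZMod 2) = 0 := by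
        rw [ZMod.intCast_zmod_eq_zero_iff_dvd]
        exact (dvd_neg).2 hbe
      simpa using this
  · refine ⟨⟨a, b, c, ha, hb, hc, p, pp, hp5, H, hgcd, ?_, hb2⟩⟩
    have : ((a : ℤ) : ZMod 4) = ((3 : ℤ) : ZMod 4) := by
      rw [ZMod.intCast_eq_intCast_iff_dvd_sub]
      omega
    simpa using this

theorem s02_of_coprime (a b c : ℤ) (ha : a ≠ 0) (hb : b ≠ 0) (hc : c ≠ 0) (p : ℕ)
    (pp : p.Prime) (hp5 : 5 ≤ p) (H : a ^ p + b ^ p = c ^ p) (hgcd : gcd a b = 1) :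
    Nonempty FreyPackage := by
  have hp_odd : Odd p := pp.odd_of_ne_two (by omega)
  have hp0 : 0 < p := by omega
  by_cases hbe : (2 : ℤ) ∣ b
  · exact s02_of_coprime_b_even a b c ha hb hc p pp hp5 H hgcd hbe
  by_cases hae : (2 : ℤ) ∣ a
  · exact s02_of_coprime_b_even b a c hb ha hc p pp hp5 (by rw [add_comm]; exact H)
      (by rw [gcd_comm]; exact hgcd) hae
  -- both odd: c is even; use a^p + (-c)^p = (-b)^p
  have hce : (2 : ℤ) ∣ c := by
    have h2 : (2 : ℤ) ∣ c ^ p := by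
      rw [← H]
      have hao : Odd (a ^ p) := (Int.not_even_iff_odd.1 (fun h => hae (even_iff_two_dvd.1 h))).pow
      have hbo : Odd (b ^ p) := (Int.not_even_iff_odd.1 (fun h => hbe (even_iff_two_dvd.1 h))).pow
      exact even_iff_two_dvd.1 (hao.add_odd hbo)
    exact Int.prime_two.dvd_of_dvd_pow h2
  refine s02_of_coprime_b_even a (-c) (-b) ha (neg_ne_zero.2 hc) (neg_ne_zero.2 hb) p pp hp5 ?_ ?_
    ((dvd_neg).2 hce)
  · rw [hp_odd.neg_pow, hp_odd.neg_pow, ← H]; ring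
  · have : gcd a c = 1 := by rw [← gcdab_eq_gcdac hp0 H]; exact hgcd
    rw [s02_gcd_iff] at this ⊢
    rw [Int.gcd_neg]; exact this

theorem result (a b c : ℤ) (ha : a ≠ 0) (hb : b ≠ 0) (hc : c ≠ 0) (p : ℕ) (pp : p.Prime) (hp5 : 5 ≤ p) (H : a ^ p + b ^ p = c ^ p) : Nonempty FreyPackage := by
  have hp0 : p ≠ 0 := by omega
  -- divide out by the gcd
  have hd0 : Int.gcd a b ≠ 0 := by
    intro h
    exact ha (Int.gcd_eq_zero_iff.1 h).1
  have hdpos : 0 < Int.gcd a b := Nat.pos_of_ne_zero hd0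
  obtain ⟨a', ha'⟩ : (Int.gcd a b : ℤ) ∣ a := Int.gcd_dvd_left a b
  obtain ⟨b', hb'⟩ : (Int.gcd a b : ℤ) ∣ b := Int.gcd_dvd_right a b
  have hdc : (Int.gcd a b : ℤ) ∣ c := by
    rw [← Int.pow_dvd_pow_iff hp0, ← H]
    exact dvd_add (pow_dvd_pow_of_dvd (Int.gcd_dvd_left a b) p)
      (pow_dvd_pow_of_dvd (Int.gcd_dvd_right a b) p)
  obtain ⟨c', hc'⟩ := hdc
  have ha'0 : a' ≠ 0 := by rintro rfl; exact ha (by rw [ha', mul_zero])
  have hb'0 : b' ≠ 0 := by rintro rfl; exact hb (by rw [hb', mul_zero])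
  have hc'0 : c' ≠ 0 := by rintro rfl; exact hc (by rw [hc', mul_zero])
  have hdz : (Int.gcd a b : ℤ) ≠ 0 := by exact_mod_cast hd0
  have H' : a' ^ p + b' ^ p = c' ^ p := by
    have hdp : (Int.gcd a b : ℤ) ^ p ≠ 0 := pow_ne_zero p hdz
    apply mul_left_cancel₀ hdp
    rw [mul_add, ← mul_pow, ← mul_pow, ← mul_pow, ← ha', ← hb', ← hc', H]
  have hgcd' : gcd a' b' = 1 := by
    rw [s02_gcd_iff]
    have h1 : Int.gcd ((Int.gcd a b : ℤ) * a') ((Int.gcd a b : ℤ) * b') = Int.gcd a b := by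
      rw [← ha', ← hb']
    rw [Int.gcd_mul_left] at h1
    simp only [Int.natAbs_natCast] at h1
    have h2 : Int.gcd a b * Int.gcd a' b' = Int.gcd a b * 1 := by rw [mul_one]; exact h1
    exact Nat.eq_of_mul_eq_mul_left hdpos h2
  exact s02_of_coprime a' b' c' ha'0 hb'0 hc'0 p pp hp5 H' hgcd'

end Fermat.Agent.S02
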