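-- Statement S12 (row 11): no Galois-stable cofixed line for the Frey curve when p ≥ 17.
-- Route: S15 (Mazur's key step) applied to the Vélu quotients E/K, + S14 (no admissible
-- extension) + Minkowski; see NOTES/S12-glue.md (sub-captain helper47).
import Fermat.Statements.S12
import Fermat.Agent.ZB.Z2S12_002
import Fermat.Agent.S15

set_option autoImplicit false
open WeierstrassCurve WeierstrassCurve.Affine WeierstrassCurve.Affine.Point
open CuspForm ModularFormClass UpperHalfPlane
open FreyPackage

namespace Fermat.Agent.S12

theorem result (P : FreyPackage) (hp : 17 ≤ P.p) : ¬ HasGaloisStableCofixedLine (K := AlgebraicClosure ℚ) ℚ P.freyCurve P.p := by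
  exact s12_of_s15 @Fermat.Agent.S15.result P hp

end Fermat.Agent.S12
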