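-- Statement S09 (row 8): Mazur — the mod-p representation of the Frey curve is irreducible.
-- Wiring: S13 (reducible ⇒ cofixed line) + S10, S11, S12 (no cofixed line).
import Fermat.Statements.S09
import Fermat.Agent.ZB.Z2S09_001
import Fermat.Agent.ZB.Z2Kummer_007
import Fermat.Agent.ZB.Z2Kummer_003
import Fermat.Agent.S12
import Fermat.Agent.ZB.Z2S13_005

set_option autoImplicit false
open WeierstrassCurve WeierstrassCurve.Affine WeierstrassCurve.Affine.Point
open CuspForm ModularFormClass UpperHalfPlane
open FreyPackage

namespace Fermat.Agent.S09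

theorem result (P : FreyPackage) : GaloisRepIsIrreducible (K := AlgebraicClosure ℚ) ℚ P.freyCurve P.p := by
  exact of_parts P (Fermat.Agent.S10.result P) (Fermat.Agent.S11.result P)
    (Fermat.Agent.S12.result P) (Fermat.Agent.S13.result P)

end Fermat.Agent.S09
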