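-- Statement S10 (row 9): the Frey curve has no Galois-stable cofixed line when p ∈ {5, 7, 13}.
-- Proof: there is no Frey package with p ∈ {5, 7, 13} (Fermat's Last Theorem for these exponents,
-- by Kummer's method: ℤ[ζ_p] is a PID, Sophie Germain for case I, Kummer's descent for case II).
import Fermat.Statements.S10
import Fermat.Agent.Kummer.NoFrey5713

set_option autoImplicit false
open WeierstrassCurve WeierstrassCurve.Affine WeierstrassCurve.Affine.Point
open CuspForm ModularFormClass UpperHalfPlane
open FreyPackage

namespace Fermat.Agent.S10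

theorem result (P : FreyPackage) (hp : P.p = 5 ∨ P.p = 7 ∨ P.p = 13) : ¬ HasGaloisStableCofixedLine (K := AlgebraicClosure ℚ) ℚ P.freyCurve P.p := by
  exfalso
  rcases hp with h | h | h
  · exact Fermat.Agent.Kummer.no_freyPackage_five P h
  · exact Fermat.Agent.Kummer.no_freyPackage_seven P h
  · exact Fermat.Agent.Kummer.no_freyPackage_thirteen P h

end Fermat.Agent.S10
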