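-- Statement S11: no Galois-stable cofixed line for the Frey curve at p = 11.
-- Route: there is no Frey package with p = 11 (Fermat's Last Theorem for exponent 11, by Kummer's
-- method: the 11-th cyclotomic ring of integers is a PID, Sophie Germain for case I, descent for case II).
import Fermat.Statements.S11
import Fermat.Agent.Kummer.CaseI
import Fermat.Agent.Kummer.CaseIIField
import Fermat.Agent.Kummer.KLDirichlet
import Fermat.Agent.Kummer.KLIndep11
import Fermat.Agent.Kummer.PID11
import Fermat.Agent.Kummer.Glue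

set_option autoImplicit false
open WeierstrassCurve WeierstrassCurve.Affine WeierstrassCurve.Affine.Point
open CuspForm ModularFormClass UpperHalfPlane
open FreyPackage

namespace Fermat.Agent.S11

open NumberField in
/-- There is no Frey package with `p = 11`. -/
theorem no_freyPackage_eleven (P : FreyPackage) (hp : P.p = 11) : False := by
  have : Fact (Nat.Prime 11) := ⟨by norm_num⟩
  have : IsCyclotomicExtension {11} ℚ (CyclotomicField 11 ℚ) :=
    CyclotomicField.isCyclotomicExtension 11 ℚ
  have : NumberField (CyclotomicField 11 ℚ) := IsCyclotomicExtension.numberField {11} ℚ _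
  have : IsPrincipalIdealRing (𝓞 (CyclotomicField 11 ℚ)) :=
    Fermat.Agent.Kummer.eleven_pid (CyclotomicField 11 ℚ)
  have hkum : ∀ u : (𝓞 (CyclotomicField 11 ℚ))ˣ,
      (∃ n : ℤ, ((11 : ℕ) : 𝓞 (CyclotomicField 11 ℚ)) ∣
        (u : 𝓞 (CyclotomicField 11 ℚ)) - (n : 𝓞 (CyclotomicField 11 ℚ))) →
      ∃ v : (𝓞 (CyclotomicField 11 ℚ))ˣ, u = v ^ 11 := by
    obtain ⟨c, hc⟩ := Fermat.Agent.Kummer.cyclo_units_indep_eleven (K := CyclotomicField 11 ℚ)
    exact Fermat.Agent.Kummer.kummer_lemma_of_indep (p := 11) (by norm_num) c hc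
  have H : Fermat.Agent.Kummer.CaseIIGen 11 (CyclotomicField 11 ℚ) :=
    Fermat.Agent.Kummer.caseIIGen_of_pid_of_kummer (by norm_num) hkum
  exact Fermat.Agent.Kummer.no_freyPackage_of_parts (p := 11) (K := CyclotomicField 11 ℚ)
    (by norm_num)
    (fun a b c hab hnd h =>
      Fermat.Agent.Kummer.CaseI.caseI (Or.inr (Or.inr (Or.inl rfl))) h hab hnd)
    H P hp

theorem result (P : FreyPackage) (hp : P.p = 11) : ¬ HasGaloisStableCofixedLine (K := AlgebraicClosure ℚ) ℚ P.freyCurve P.p := by
  exact (no_freyPackage_eleven P hp).elim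

end Fermat.Agent.S11
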