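-- Statement S14 (row 13): ExtVanishingCts p for every prime p ≥ 3.
-- Route: Kummer theory + Thaine's relation + boundedness of class character L-series at 1
-- + equivariant unit theorem + local computation at the prime above p (see NOTES/S14.md).
import Fermat.Statements.S14
import Fermat.Agent.S14.Final
import Fermat.Agent.S14.DecompVal
import Fermat.Agent.S14.LBoundedFinal
import Fermat.Agent.S14.ThaineRel
import Fermat.Agent.S14.ThaineGal
import Fermat.Agent.S14.ThaineNorm
import Fermat.Agent.S14.ThaineRam
import Fermat.Agent.S14.ThaineProj

set_option autoImplicit false
open ExtCitation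

namespace Fermat.Agent.S14

theorem result {p : ℕ} [Fact p.Prime] (h3 : 3 ≤ p) :
    ExtCitation.ExtVanishingCts p := by
  exact extVanishingCts_of_three h3 (decompStatement h3)
    (fun _ => thaineStatement_of_rel h3
      (thaineRelStatement h3 (thaineGalStatement p) thaineRamStatement
        (thaineNormStatement p h3)))
    lBoundedStatement

end Fermat.Agent.S14
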