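-- Statement S13 (row 12): if the mod-p representation of the Frey curve is reducible, it has a
-- Galois-stable cofixed line.
-- Proof (elementary, no Mazur; S13 team, captain helper77, co-captain helper57):
--   division polynomial criterion (DivPoly/*, MFSomos, EDS) gives E[p] nontrivial, card ≤ p²;
--   inertia at q ≠ 2, p acts trivially (S05), unipotently at 2 (Local/FreyAtTwo), and at p it
--   fixes a stable line or its quotient (StepP); Minkowski (no unramified extension of ℚ) makes one
--   of the two characters trivial; the Frey curve has no rational point of order p (Local/NoFixed),
--   so it is the character on the quotient: the stable line is cofixed (Assembly).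
import Fermat.Statements.S13
import Fermat.Agent.S13.Wiring
import Fermat.Agent.S13.DivPoly.Bridge

set_option autoImplicit false
open WeierstrassCurve WeierstrassCurve.Affine WeierstrassCurve.Affine.Point
open CuspForm ModularFormClass UpperHalfPlane
open FreyPackage

namespace Fermat.Agent.S13

theorem result (P : FreyPackage) (hred : ¬ GaloisRepIsIrreducible (K := AlgebraicClosure ℚ) ℚ P.freyCurve P.p) : HasGaloisStableCofixedLine (K := AlgebraicClosure ℚ) ℚ P.freyCurve P.p := by
  exact stmtS13_of_criterion stmtTorsZero stmtZeroTors P hred

end Fermat.Agent.S13
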