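-- S16: the index of the image of the Eisenstein ideal in the integral Hecke algebra of weight 2 and
-- level p equals the numerator of (p-1)/12.  Assembly: (C) duality (Dual), (B) upper bound (Upper),
-- (A) lower bound from a theta series (LowerForm, ThetaTop); see NOTES/S16-plan.md.
import Fermat.Statements.S16
import Fermat.Agent.S16.Main
import Fermat.Agent.S16.ThetaTop

set_option autoImplicit false
open ModularCurve CuspForm
open ModularCurve

namespace Fermat.Agent.S16

theorem result
    (p : ℕ) [Fact p.Prime] :
    Nat.card (↥(heckeLatticeAlgebra p ∅) ⧸
        Ideal.map ((latticeRestrictHom p ∅).toRingHom.comp (heckeEvalForms p 2))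
          (eisensteinIdeal p)) =
      eisensteinNumerator p := by
  exact s16_of_theta p (fun hp2 => stmtTheta_odd p hp2)

end Fermat.Agent.S16
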