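import Fermat.Statements.S24
import Fermat.Agent.S24.PreFinal
import Fermat.Agent.S24.PrincipalDegree
import Fermat.Agent.S24.RealizationExists

set_option autoImplicit false
open ModularCurve

namespace Fermat.Agent.S24

theorem result (N : ℕ) [NeZero N]
    [AlgebraicCurve.HasCanonicalDivisor (K := AlgebraicClosure ℚ) (F := ↥(ModularCurve.modularFunctionFieldBar N))] :
    (AlgebraicCurve.genus (AlgebraicClosure ℚ) ↥(ModularCurve.modularFunctionFieldBar N) : ℚ)
      = ModularCurve.genusFormula N := by
  obtain ⟨R⟩ := exists_realization N
  obtain ⟨htr, hfin, hdeg, hsum⟩ := principal_inputs N R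
  exact genus_of_realization N R
    (fun g hg D hD => degree_principal_eq_zero (jF N) htr hdeg hsum g hg D hD)

end Fermat.Agent.S24
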