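import Fermat.Statements.S28
import Fermat.Agent.S28.Charts
import Fermat.Agent.S28.KeyDataJ
import Fermat.Agent.S28.TensorDomain
import Fermat.Agent.S28.Glue

set_option autoImplicit false
open AlgebraicGeometry CategoryTheory CategoryTheory.Limits ModularCurve ModularCurve.IgusaScheme
noncomputable section
set_option autoImplicit false
open ModularCurve ModularCurve.IgusaScheme

namespace Fermat.Agent.S28

/-- `j` is a unit of `ℤ_(ℓ)((q))`. -/
theorem s28_isUnit_jqModC_lam (ℓ : ℕ) [Fact ℓ.Prime] :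
    IsUnit (jqModC ↥(GaloisRep.ratLocalizedAt ℓ)) := by
  rw [HahnSeries.isUnit_iff]
  have hne : jqModC ↥(GaloisRep.ratLocalizedAt ℓ) ≠ 0 := jqModC_ne_zero_of_nontrivial _
  have hord : (jqModC ↥(GaloisRep.ratLocalizedAt ℓ)).order = -1 := by
    have h1 : (jqModC ↥(GaloisRep.ratLocalizedAt ℓ)).coeff (-1) = 1 := coeff_jqModC_neg_one _
    apply le_antisymm
    · exact HahnSeries.order_le_of_coeff_ne_zero (by rw [h1]; exact one_ne_zero)
    · by_contra hlt
      rw [not_le] at hlt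
      exact hne (HahnSeries.coeff_order_eq_zero.mp (coeff_jqModC_of_lt _ hlt))
  rw [HahnSeries.leadingCoeff_eq, hord, coeff_jqModC_neg_one]
  exact isUnit_one

set_option maxHeartbeats 4000000 in
set_option synthInstance.maxHeartbeats 400000 in
theorem result
    (N : ℕ) [NeZero N] (ℓ : ℕ) [Fact ℓ.Prime] (hℓN : ¬ ℓ ∣ N)
    (K : Type) [Field K] [CharP K ℓ] [Algebra ↥(GaloisRep.ratLocalizedAt ℓ) K] :
    IsIntegral ↑(pullback (igusaTo N ℓ)
      (Spec.map (CommRingCat.ofHom (algebraMap ↥(GaloisRep.ratLocalizedAt ℓ) K)))) := by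
  obtain ⟨n, x, kd⟩ := exists_keyData_j N ℓ hℓN
  have hj : ((jFull N : ↥(modularFunctionFieldFull N)) : LaurentSeries ℚ) =
      lamIncl ℓ (jqModC ↥(GaloisRep.ratLocalizedAt ℓ)) := (lamIncl_jqModC ℓ).symm
  obtain ⟨s₀, hs⟩ := (s28_isUnit_jqModC_lam ℓ).exists_right_inv
  obtain ⟨m, kd'⟩ := kd.inv s₀ hs
  have hs' : (((jFull N)⁻¹ : ↥(modularFunctionFieldFull N)) : LaurentSeries ℚ) = lamIncl ℓ s₀ := by
    have h1 : lamIncl ℓ (jqModC ↥(GaloisRep.ratLocalizedAt ℓ)) * lamIncl ℓ s₀ = 1 := by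
      rw [← map_mul, hs, map_one]
    rw [IntermediateField.coe_inv, hj]
    exact (eq_inv_of_mul_eq_one_right h1).symm
  obtain ⟨ρF, hF⟩ := kd.exists_chartRed' (jFull N) hj
  obtain ⟨ρI, hI⟩ := kd'.exists_chartRed' ((jFull N)⁻¹) hs'
  obtain ⟨ρM⟩ := kd.exists_midRed' (jFull N) hj
  exact isIntegral_pullback_igusaTo N ℓ K (isDomain_tensor_of_ker ℓ _ ρF hF K)
    (isDomain_tensor_of_ker ℓ _ ρI hI K) (nontrivial_tensor_of_hom ℓ _ ρM K)

end Fermat.Agent.S28
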