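import Fermat.Statements.S49
import Fermat.Agent.S49.EigenAlg
import Fermat.Agent.S49.QExp
import Fermat.Agent.S49.Integral
import Fermat.Agent.S49.Normalize
import Fermat.Agent.S49.LyingOver
import Fermat.Agent.S49.ModThree

set_option autoImplicit false
open CuspForm EisensteinWeightOne CongruenceSubgroup ModularFormClass
open FLT FLT.AbstractIntegralStructure

namespace Fermat.Agent.S49

theorem result
    {N : ℕ} [NeZero N] (h : CuspForm.HasIntegralBasis N) {a : ℕ → ℤ}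
    (heig : FormalHecke.IsEigensystem
      (fun ℓ => if ℓ ∣ N then 0 else ((chiNegThree ℓ : ℤ) : ℤ)) a)
    (hreal : CuspForm.IsLatticeRealized N a) :
    ∃ (f : CuspForm (Gamma0 N) 2) (_ : f.IsNormalizedEigenform)
      (𝔪' : Ideal (integralClosure ℤ ℂ)), 𝔪'.IsMaximal ∧
      ((3 : ℕ) : integralClosure ℤ ℂ) ∈ 𝔪' ∧
      ∀ (ℓ : ℕ) (_ : ℓ.Prime) (_ : ¬ ℓ ∣ N),
        ∃ c : integralClosure ℤ ℂ, (c : ℂ) = ModularFormClass.qCoeff f ℓ ∧
          c - (a ℓ : integralClosure ℤ ℂ) ∈ 𝔪' := by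
  classical
  obtain ⟨𝔪, h𝔪max, h3, hT⟩ := exists_maximal_hecke_mod_three_aux heig hreal
  have h𝔪prime : 𝔪.IsPrime := h𝔪max.isPrime
  have hfd : FiniteDimensional ℂ (CuspForm (Gamma0 N) 2) := finiteDimensional_cuspForm N 2
  obtain ⟨v, ψ, hv, hψ, hker⟩ := exists_eigenvector_of_injective (K := ℂ)
    ((CuspForm.heckeAlgebra N 2 ∅).val.toRingHom) Subtype.val_injective 𝔪
  have hint : Algebra.IsIntegral ℤ (CuspForm.heckeAlgebra N 2 ∅) := isIntegral_heckeAlgebra h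
  obtain ⟨ψ', 𝔪', hψ', h𝔪', hcomap⟩ := exists_maximal_over ψ 𝔪 hker
  obtain ⟨f, hf, hfℓ⟩ := exists_normalized_eigenform v hv ψ (fun t => hψ t)
  refine ⟨f, hf, 𝔪', h𝔪', ?_, ?_⟩
  · have h3' : ((3 : ℕ) : CuspForm.heckeAlgebra N 2 ∅) ∈ 𝔪'.comap ψ' := hcomap ▸ h3
    rw [Ideal.mem_comap, map_natCast] at h3'
    exact h3'
  · intro ℓ hℓ hℓN
    refine ⟨ψ' (CuspForm.heckeAlgebra.T hℓ hℓN (Set.notMem_empty ℓ)), ?_, ?_⟩
    · rw [hψ', hfℓ ℓ hℓ hℓN]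
    · have hT' : CuspForm.heckeAlgebra.T hℓ hℓN (Set.notMem_empty ℓ) -
          ((a ℓ : ℤ) : CuspForm.heckeAlgebra N 2 ∅) ∈ 𝔪'.comap ψ' := hcomap ▸ hT ℓ hℓ hℓN
      rw [Ideal.mem_comap, map_sub, map_intCast] at hT'
      exact hT'

end Fermat.Agent.S49
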