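import Fermat.Statements.S51
import Fermat.Agent.S51.Core
import Fermat.Agent.S51.T3
import Fermat.Agent.S51.T5
import Fermat.Agent.S51.Final
import Fermat.Agent.S51.RatPoints

set_option autoImplicit false
open WeierstrassCurve WeierstrassCurve.Affine WeierstrassCurve.Affine.Point
open CuspForm ModularFormClass UpperHalfPlane
open WeierstrassCurve

namespace Fermat.Agent.S51

theorem result (W : WeierstrassCurve ℤ) (hΔ : W.Δ ≠ 0) (hW : W.IsSemistableModel) : W.ModRepIsIrreducible 3 ∨ W.ModRepIsIrreducible 5 := by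
  by_contra hcon
  rw [not_or] at hcon
  obtain ⟨h3, h5⟩ := hcon
  have hΔq : (W.map (Int.castRingHom ℚ)).Δ ≠ 0 := final_map_Δ_ne_zero W hΔ
  obtain ⟨hnt3, hT3⟩ := T3 (W.map (Int.castRingHom ℚ)) hΔq
  obtain ⟨hnt5, hT5⟩ := T5 (W.map (Int.castRingHom ℚ)) hΔq
  have hN3 : ∃ N : Submodule (ZMod 3) (Submodule.torsionBy ℤ
      ((W.map (Int.castRingHom ℚ))⁄(AlgebraicClosure ℚ)).Point ((3 : ℕ) : ℤ)),
        IsGaloisStable ℚ N ∧ N ≠ ⊥ ∧ N ≠ ⊤ := by
    unfold WeierstrassCurve.ModRepIsIrreducible GaloisRepIsIrreducible at h3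
    push Not at h3
    exact h3 hnt3
  have hN5 : ∃ N : Submodule (ZMod 5) (Submodule.torsionBy ℤ
      ((W.map (Int.castRingHom ℚ))⁄(AlgebraicClosure ℚ)).Point ((5 : ℕ) : ℤ)),
        IsGaloisStable ℚ N ∧ N ≠ ⊥ ∧ N ≠ ⊤ := by
    unfold WeierstrassCurve.ModRepIsIrreducible GaloisRepIsIrreducible at h5
    push Not at h5
    exact h5 hnt5
  obtain ⟨x₃, hx₃⟩ := hT3 hN3
  obtain ⟨s, m, hsm, h1, h2⟩ := hT5 hN5
  have key := core ratPoints_15a1 (W.map (Int.castRingHom ℚ)) hΔq x₃ s m hx₃ hsm h1 h2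
  rw [final_map_c₄, final_map_Δ] at key
  exact final_arith W hW hΔ (by exact_mod_cast key)

end Fermat.Agent.S51
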