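-- Statement S52 (row 46): the 3–5 switch.
-- Proof = explicit switch curve (Rubin–Silverberg family through the Klein icosahedral model):
-- pieces in Fermat/Agent/S52/* (see NOTES/S52-route.md).
import Fermat.Statements.S52
import Fermat.Agent.S52.Wiring
import Fermat.Agent.S52.Semistable
import Fermat.Agent.S52.Cong

set_option autoImplicit false
open WeierstrassCurve WeierstrassCurve.Affine WeierstrassCurve.Affine.Point
open CuspForm ModularFormClass UpperHalfPlane
open WeierstrassCurve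

namespace Fermat.Agent.S52

theorem result (W : WeierstrassCurve ℤ) (hΔ : W.Δ ≠ 0) (hW : W.IsSemistableModel) (h5 : W.ModRepIsIrreducible 5) : ∃ W' : WeierstrassCurve ℤ, W'.Δ ≠ 0 ∧ W'.IsSemistableModel ∧ W'.ModRepIsIrreducible 3 ∧ ∀ ℓ : ℕ, ℓ.Prime → W.IsGoodPrimeFor ℓ → W'.IsGoodPrimeFor ℓ → ℓ ≠ 5 → (5 : ℤ) ∣ (W'.apOfModel ℓ - W.apOfModel ℓ) :=
  s52_of_pieces (fun W hW hΔ s => switchCurve_isSemistable hW hΔ s) cong_core W hΔ hW

end Fermat.Agent.S52
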